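import Fermat.Agent.S24.Ord

/-!
# S24 assembly: generic construction of `LocalData` from polynomial-level statements

If `F` is the field of fractions of the range of `ev : MvPolynomial σ K →ₐ[K] F`, the fields
`order_ρ`, `dvd_order` and `sym` of `LocalData K F X ev.range π` only have to be checked on the
elements `ev P`.  Used for the finite centers (`FinCenter.lean`) and usable at infinity.
-/

set_option autoImplicit false

noncomputable section

namespace Fermat.Agent.S24.H49

open Fermat.Agent.S24

/-- Order of a quotient of nonzero Laurent series. -/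
theorem lorder_div {a b : LaurentSeries ℂ} (ha : a ≠ 0) (hb : b ≠ 0) :
    (a / b).order = a.order - b.order := by
  rw [div_eq_mul_inv, lorder_mul ha (inv_ne_zero hb), lorder_inv, sub_eq_add_neg]

/-- Generic builder of local data: all conditions are checked on the image of `ev`. -/
theorem exists_localData_of_poly {K F X σ : Type*} [Field K] [Field F] [Algebra K F] [Fintype X]
    (ev : MvPolynomial σ K →ₐ[K] F)
    (hfrac : ∀ f : F, ∃ P Q : MvPolynomial σ K, ev Q ≠ 0 ∧ f = ev P / ev Q)
    (π : F) (ι : K →+* ℂ) (φ : X → F →+* LaurentSeries ℂ)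
    (hC : ∀ x a, φ x (algebraMap K F a) = HahnSeries.C (ι a))
    (hπ : ∀ x y, φ x π = φ y π)
    (hinj : Function.Injective φ)
    (s : ℕ) (hs : 0 < s) (hsπ : ∀ x, (φ x π).order = s)
    (ρ : Equiv.Perm X)
    (hρ : ∀ x P, ev P ≠ 0 → (φ (ρ x) (ev P)).order = (φ x (ev P)).order)
    (hdvd : ∀ x P (k : ℕ), (ρ ^ k) x = x → ev P ≠ 0 → (s : ℤ) ∣ k * (φ x (ev P)).order)
    (hsym : ∀ P (k : ℕ), ∃ ε ∈ IntermediateField.adjoin K {π}, ∀ x,
      φ x ε = (Finset.univ.val.map fun y => φ y (ev P)).esymm k) :
    ∃ L : LocalData K F X ev.range π, L.ρ = ρ ∧ L.φ = φ := by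
  have hne : ∀ x (f : F), f ≠ 0 → φ x f ≠ 0 := fun x f hf => (map_ne_zero (φ x)).mpr hf
  refine ⟨{ ι := ι
            φ := φ
            φ_algebraMap := hC
            φ_π := hπ
            φ_injective := hinj
            s := s
            s_pos := hs
            order_π := hsπ
            ρ := ρ
            order_ρ := ?_
            dvd_order := ?_
            sym := ?_ }, rfl, rfl⟩
  · intro x f
    obtain ⟨P, Q, hQ, rfl⟩ := hfrac f
    by_cases hP : ev P = 0
    · simp [hP]
    · rw [map_div₀, map_div₀, lorder_div (hne _ _ hP) (hne _ _ hQ),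
        lorder_div (hne _ _ hP) (hne _ _ hQ), hρ x P hP, hρ x Q hQ]
  · intro x f k hk
    obtain ⟨P, Q, hQ, rfl⟩ := hfrac f
    by_cases hP : ev P = 0
    · simp [hP]
    · rw [map_div₀, lorder_div (hne _ _ hP) (hne _ _ hQ), mul_sub]
      exact dvd_sub (hdvd x P k hk hP) (hdvd x Q k hk hQ)
  · rintro a ⟨P, rfl⟩ k
    exact hsym P k

end Fermat.Agent.S24.H49
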