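import Fermat.Agent.S24.H68.TranslJd

/-!
# S24, assembly block FIN-MONO (M1): the translates `transl N x P` under `SL(2, ℤ)`

* `translHom N x` : `P ↦ transl N x P` as a ring homomorphism, with the usual `transl_add`,
  `transl_mul`, `transl_C`, `transl_X`, ... lemmas.
* `transl_smul : transl N x P (γ • τ) = transl N (γ⁻¹ • x) P τ` (monodromy of the translates).
* `transl_X_oneDiv : transl N x (X (oneDiv N)) = Jfun`.
* `mdifferentiable_transl : MDiff (transl N x P)`.
* `esymm_transl_smul` : the elementary symmetric functions of the translates are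
  `SL(2, ℤ)`-invariant.
-/

set_option autoImplicit false

open Complex Filter Topology ModularForm EisensteinSeries CongruenceSubgroup
open UpperHalfPlane hiding I
open scoped MatrixGroups Real Manifold

namespace Fermat.Agent.S24.H49

open Fermat.Agent.S24

/-- `P ↦ transl N x P` as a ring homomorphism. -/
noncomputable def translHom (N : ℕ) (x : XX N) : MvPolynomial (N.divisors) Kbar →+* (ℍ → ℂ) :=
  RingHom.pi fun τ => (Pi.evalRingHom (fun _ : ℍ => ℂ)
    ((Quotient.out x : SL(2, ℤ))⁻¹ • τ)).comp (Theta N)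

theorem translHom_apply (N : ℕ) (x : XX N) (P : MvPolynomial (N.divisors) Kbar) :
    translHom N x P = transl N x P := rfl

theorem transl_add (N : ℕ) (x : XX N) (P Q : MvPolynomial (N.divisors) Kbar) :
    transl N x (P + Q) = transl N x P + transl N x Q := map_add (translHom N x) P Q

theorem transl_mul (N : ℕ) (x : XX N) (P Q : MvPolynomial (N.divisors) Kbar) :
    transl N x (P * Q) = transl N x P * transl N x Q := map_mul (translHom N x) P Q

theorem transl_sub (N : ℕ) (x : XX N) (P Q : MvPolynomial (N.divisors) Kbar) :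
    transl N x (P - Q) = transl N x P - transl N x Q := map_sub (translHom N x) P Q

theorem transl_neg (N : ℕ) (x : XX N) (P : MvPolynomial (N.divisors) Kbar) :
    transl N x (-P) = -transl N x P := map_neg (translHom N x) P

theorem transl_zero (N : ℕ) (x : XX N) : transl N x 0 = 0 := map_zero (translHom N x)

theorem transl_one (N : ℕ) (x : XX N) : transl N x 1 = 1 := map_one (translHom N x)

theorem transl_pow (N : ℕ) (x : XX N) (P : MvPolynomial (N.divisors) Kbar) (n : ℕ) :
    transl N x (P ^ n) = transl N x P ^ n := map_pow (translHom N x) P n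

theorem transl_sum {ι : Type*} (N : ℕ) (x : XX N) (s : Finset ι)
    (P : ι → MvPolynomial (N.divisors) Kbar) :
    transl N x (∑ i ∈ s, P i) = ∑ i ∈ s, transl N x (P i) := map_sum (translHom N x) P s

theorem transl_prod {ι : Type*} (N : ℕ) (x : XX N) (s : Finset ι)
    (P : ι → MvPolynomial (N.divisors) Kbar) :
    transl N x (∏ i ∈ s, P i) = ∏ i ∈ s, transl N x (P i) := map_prod (translHom N x) P s

theorem transl_C (N : ℕ) (x : XX N) (a : Kbar) :
    transl N x (MvPolynomial.C a) = fun _ => iota a := by
  funext τ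
  simp [transl, H68.Theta_apply]

theorem transl_X (N : ℕ) (x : XX N) (d : N.divisors) (τ : ℍ) :
    transl N x (MvPolynomial.X d) τ = Jd (d : ℕ) ((Quotient.out x : SL(2, ℤ))⁻¹ • τ) := by
  simp [transl, H68.Theta_apply]

theorem levelMul_one (τ : ℍ) : levelMul 1 τ = τ := by
  apply UpperHalfPlane.ext
  simp

theorem Jd_one : Jd 1 = Jfun := by
  funext τ
  rw [Jd, levelMul_one]

/-- The translates of the generator `j = j_1` are all equal to `Jfun`. -/
theorem transl_X_oneDiv (N : ℕ) [NeZero N] (x : XX N) :
    transl N x (MvPolynomial.X (oneDiv N)) = Jfun := by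
  funext τ
  rw [transl_X]
  show Jd 1 _ = _
  rw [Jd_one, H68.Jfun_smul]

/-- Monodromy of the translates: precomposition with `γ` permutes them. -/
theorem transl_smul (N : ℕ) (x : XX N) (P : MvPolynomial (N.divisors) Kbar) (γ : SL(2, ℤ))
    (τ : ℍ) : transl N x P (γ • τ) = transl N (γ⁻¹ • x) P τ := by
  obtain ⟨g, rfl⟩ := QuotientGroup.mk_surjective x
  have h1 : (γ⁻¹ • (QuotientGroup.mk g : XX N)) = (QuotientGroup.mk (γ⁻¹ * g) : XX N) := rfl
  rw [h1, H68.transl_mk, H68.transl_mk]
  simp only [mul_inv_rev, inv_inv, mul_smul]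

/-- Variant of `transl_smul`. -/
theorem transl_smul' (N : ℕ) (x : XX N) (P : MvPolynomial (N.divisors) Kbar) (γ : SL(2, ℤ))
    (τ : ℍ) : transl N (γ • x) P τ = transl N x P (γ⁻¹ • τ) := by
  rw [transl_smul, inv_inv]

/-- If `γ ^ k` fixes the coset `x` then `transl N x P` is invariant under `γ ^ k`. -/
theorem transl_smul_of_fixed (N : ℕ) (x : XX N) (P : MvPolynomial (N.divisors) Kbar)
    (γ : SL(2, ℤ)) (hγ : γ • x = x) (τ : ℍ) : transl N x P (γ • τ) = transl N x P τ := by
  rw [transl_smul]
  congr 1
  rw [inv_smul_eq_iff, hγ]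

/-- Precomposition with `γ` permutes the multiset of translates. -/
theorem map_transl_smul (N : ℕ) [Fintype (XX N)] (P : MvPolynomial (N.divisors) Kbar)
    (γ : SL(2, ℤ)) (τ : ℍ) :
    (Finset.univ.val.map fun y : XX N => transl N y P (γ • τ))
      = (Finset.univ.val.map fun y : XX N => transl N y P τ) := by
  simp only [transl_smul]
  have h := Multiset.map_univ_val_equiv (MulAction.toPerm γ⁻¹ : Equiv.Perm (XX N))
  conv_rhs => rw [← h, Multiset.map_map]
  rfl

/-- The elementary symmetric functions of the translates are `SL(2, ℤ)`-invariant. -/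
theorem esymm_transl_smul (N : ℕ) [Fintype (XX N)] (P : MvPolynomial (N.divisors) Kbar) (k : ℕ)
    (γ : SL(2, ℤ)) (τ : ℍ) :
    (Finset.univ.val.map fun y : XX N => transl N y P (γ • τ)).esymm k
      = (Finset.univ.val.map fun y : XX N => transl N y P τ).esymm k := by
  rw [map_transl_smul]

/-- The product of the translates is `SL(2, ℤ)`-invariant. -/
theorem prod_transl_smul (N : ℕ) [Fintype (XX N)] (P : MvPolynomial (N.divisors) Kbar)
    (γ : SL(2, ℤ)) (τ : ℍ) :
    ∏ y : XX N, transl N y P (γ • τ) = ∏ y : XX N, transl N y P τ := by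
  have := congrArg Multiset.prod (map_transl_smul N P γ τ)
  simpa using this

/-- `J_d` is holomorphic. -/
theorem mdifferentiable_Jd (d : ℕ) [NeZero d] : MDiff (Jd d) := by
  have hJ : MDiff Jfun := H64.mdifferentiable_J
  rw [UpperHalfPlane.mdifferentiable_iff] at hJ ⊢
  have hd : (0 : ℝ) < d := by exact_mod_cast Nat.pos_of_ne_zero (NeZero.ne d)
  have hmaps : Set.MapsTo (fun z : ℂ => (d : ℂ) * z) {z : ℂ | 0 < z.im} {z : ℂ | 0 < z.im} := by
    intro z hz
    simpa using mul_pos hd hz
  have hcomp : DifferentiableOn ℂ ((Jfun ∘ ofComplex) ∘ fun z : ℂ => (d : ℂ) * z)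
      {z : ℂ | 0 < z.im} :=
    hJ.comp (by fun_prop) hmaps
  refine hcomp.congr fun z hz => ?_
  have hz' : 0 < z.im := hz
  simp only [Function.comp_apply]
  rw [Jd]
  congr 1
  apply UpperHalfPlane.ext
  rw [coe_levelMul, ofComplex_apply_of_im_pos hz', ofComplex_apply_of_im_pos (hmaps hz)]

/-- `Theta N P` is holomorphic. -/
theorem mdifferentiable_Theta (N : ℕ) (P : MvPolynomial (N.divisors) Kbar) :
    MDiff (Theta N P) := by
  induction P using MvPolynomial.induction_on with
  | C a =>
    have : Theta N (MvPolynomial.C a) = fun _ => iota a := by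
      funext τ; simp [H68.Theta_apply]
    rw [this]
    exact mdifferentiable_const
  | add p q hp hq =>
    rw [map_add]
    exact hp.add hq
  | mul_X p i hp =>
    rw [map_mul]
    have hX : Theta N (MvPolynomial.X i) = Jd (i : ℕ) := by
      funext τ; simp [H68.Theta_apply]
    rw [hX]
    exact hp.mul (mdifferentiable_Jd _)

/-- The translates are holomorphic. -/
theorem mdifferentiable_transl (N : ℕ) (x : XX N) (P : MvPolynomial (N.divisors) Kbar) :
    MDiff (transl N x P) := by
  have h1 : MDiff (fun τ : ℍ => ((Quotient.out x : SL(2, ℤ))⁻¹ • τ : ℍ)) := by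
    have := UpperHalfPlane.mdifferentiable_smul
      (g := (((Quotient.out x : SL(2, ℤ))⁻¹ : SL(2, ℤ)) : GL (Fin 2) ℝ)) (by simp)
    exact this
  exact (mdifferentiable_Theta N P).comp h1

end Fermat.Agent.S24.H49
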