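import Fermat.Agent.S24.Taylor
import Fermat.Agent.S24.Ker
import Fermat.Agent.S24.Sym
import Fermat.Agent.S24.Bridge
import Fermat.Agent.S24.H49.LocalBuild

/-!
# S24 assembly: the local data at a point `τ₀` of the upper half plane

`exists_localData_at`: for `τ₀` with `Jfun τ₀ = iota c`, fixed by `γ : SL(2, ℤ)` whose multiplier
at `τ₀` is a primitive `s`-th root of unity, where `s` is the order of `Jfun - iota c` at `τ₀`,
the Taylor expansions at `τ₀` of the translates give a `LocalData` with monodromy `toPerm γ`.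
-/

set_option autoImplicit false

open UpperHalfPlane ModularCurve CongruenceSubgroup
open scoped MatrixGroups Manifold

noncomputable section

namespace Fermat.Agent.S24.H49

open Fermat.Agent.S24

/-- The subring of holomorphic functions on the upper half plane. -/
def holSubring : Subring (ℍ → ℂ) where
  carrier := {f | MDiff f}
  mul_mem' hf hg := hf.mul hg
  one_mem' := mdifferentiable_const
  add_mem' hf hg := hf.add hg
  zero_mem' := mdifferentiable_const
  neg_mem' hf := hf.neg

theorem mem_holSubring {f : ℍ → ℂ} : f ∈ holSubring ↔ MDiff f := Iff.rfl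

/-- Taylor expansion at `τ₀` as a ring homomorphism on holomorphic functions. -/
def taylorHom (τ₀ : ℍ) : holSubring →+* PowerSeries ℂ where
  toFun f := taylorAt τ₀ f.1
  map_one' := by
    have h := taylorAt_const τ₀ 1
    rw [map_one] at h
    exact h
  map_mul' f g := taylorAt_mul τ₀ f.2 g.2
  map_zero' := by
    have h := taylorAt_const τ₀ 0
    rw [map_zero] at h
    exact h
  map_add' f g := taylorAt_add τ₀ f.2 g.2

theorem taylorHom_apply (τ₀ : ℍ) (f : holSubring) : taylorHom τ₀ f = taylorAt τ₀ f.1 := rfl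

theorem taylorHom_injective (τ₀ : ℍ) : Function.Injective (taylorHom τ₀) := by
  rw [injective_iff_map_eq_zero]
  intro f hf
  exact Subtype.ext ((taylorAt_eq_zero_iff τ₀ f.2).mp hf)

/-- Taylor expansion as a Laurent series. -/
def laurentHom (τ₀ : ℍ) : holSubring →+* LaurentSeries ℂ :=
  (HahnSeries.ofPowerSeries ℤ ℂ).comp (taylorHom τ₀)

theorem laurentHom_apply (τ₀ : ℍ) (f : holSubring) :
    laurentHom τ₀ f = HahnSeries.ofPowerSeries ℤ ℂ (taylorAt τ₀ f.1) := rfl

theorem laurentHom_injective (τ₀ : ℍ) : Function.Injective (laurentHom τ₀) :=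
  HahnSeries.ofPowerSeries_injective.comp (taylorHom_injective τ₀)

/-- The order of the Taylor expansion of a nonzero holomorphic function. -/
theorem order_laurentHom (τ₀ : ℍ) {f : holSubring} (hf : f ≠ 0) :
    ∃ n : ℕ, analyticOrderAt (f.1 ∘ ofComplex) (τ₀ : ℂ) = n ∧ (laurentHom τ₀ f).order = n := by
  have hp : taylorAt τ₀ f.1 ≠ 0 := fun h => hf ((taylorHom_injective τ₀) (by
    rw [map_zero]; exact h))
  have h1 := order_ofPowerSeries hp
  have h2 := order_taylorAt τ₀ f.2
  have h3 : (taylorAt τ₀ f.1).order ≠ ⊤ := fun h => hp (PowerSeries.order_eq_top.mp h)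
  refine ⟨(taylorAt τ₀ f.1).order.toNat, ?_, ?_⟩
  · rw [← h2, ENat.natCast_toNat h3]
  · rw [laurentHom_apply]
    exact_mod_cast h1

/-- Ring homomorphisms commute with `esymm` of a finite family. -/
theorem map_esymm_univ {R S X : Type*} [CommSemiring R] [CommSemiring S] [Fintype X]
    (f : R →+* S) (g : X → R) (k : ℕ) :
    f ((Finset.univ.val.map g).esymm k) = (Finset.univ.val.map fun y => f (g y)).esymm k := by
  rw [Finset.esymm_map_val, Finset.esymm_map_val, map_sum]
  simp [map_prod]

variable (N : ℕ)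

/-- The translates as holomorphic functions. -/
def translHol (x : XX N) : MvPolynomial (N.divisors) Kbar →+* holSubring :=
  (translHom N x).codRestrict holSubring fun P => mdiff_transl N x P

theorem translHol_coe (x : XX N) (P : MvPolynomial (N.divisors) Kbar) :
    (translHol N x P : ℍ → ℂ) = transl N x P := rfl

/-- The polynomial-level Taylor expansion homomorphism at `τ₀`. -/
def PhiFin (τ₀ : ℍ) (x : XX N) : MvPolynomial (N.divisors) Kbar →+* LaurentSeries ℂ :=
  (laurentHom τ₀).comp (translHol N x)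

theorem PhiFin_apply (τ₀ : ℍ) (x : XX N) (P : MvPolynomial (N.divisors) Kbar) :
    PhiFin N τ₀ x P = HahnSeries.ofPowerSeries ℤ ℂ (taylorAt τ₀ (transl N x P)) := rfl

variable [NeZero N]

theorem translHol_eq_zero_iff (x : XX N) (P : MvPolynomial (N.divisors) Kbar) :
    translHol N x P = 0 ↔ evF N P = 0 := by
  rw [← Theta_eq_zero_iff, ← transl_eq_zero_iff N x P]
  constructor
  · intro h
    have := congrArg Subtype.val h
    exact this
  · intro h
    exact Subtype.ext h

theorem PhiFin_eq_zero_iff (τ₀ : ℍ) (x : XX N) (P : MvPolynomial (N.divisors) Kbar) :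
    PhiFin N τ₀ x P = 0 ↔ evF N P = 0 := by
  rw [← translHol_eq_zero_iff N x P]
  constructor
  · intro h
    exact laurentHom_injective τ₀ (by rw [map_zero]; exact h)
  · intro h
    show laurentHom τ₀ (translHol N x P) = 0
    rw [h, map_zero]

/-- The Taylor expansion embedding of the function field at `τ₀`, for the coset `x`. -/
def phiFin (τ₀ : ℍ) (x : XX N) : FF N →+* LaurentSeries ℂ :=
  (exists_unique_extension (evF N) (evF_frac N) (PhiFin N τ₀ x)
    (PhiFin_eq_zero_iff N τ₀ x)).exists.choose

theorem phiFin_evF (τ₀ : ℍ) (x : XX N) (P : MvPolynomial (N.divisors) Kbar) :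
    phiFin N τ₀ x (evF N P) = PhiFin N τ₀ x P :=
  (exists_unique_extension (evF N) (evF_frac N) (PhiFin N τ₀ x)
    (PhiFin_eq_zero_iff N τ₀ x)).exists.choose_spec P

theorem phiFin_evF' (τ₀ : ℍ) (x : XX N) (P : MvPolynomial (N.divisors) Kbar) :
    phiFin N τ₀ x (evF N P) = laurentHom τ₀ (translHol N x P) :=
  phiFin_evF N τ₀ x P

/-- In a group action, if `γ ^ s` acts trivially for a prime `s`, then a point fixed by `γ ^ k`
is fixed by `γ` unless `s ∣ k`. -/
theorem dvd_or_smul_eq_of_pow_smul {G X : Type*} [Group G] [MulAction G X] (γ : G) {s : ℕ}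
    (hs : s.Prime) (hγ : ∀ x : X, γ ^ s • x = x) (x : X) (k : ℕ) (hk : γ ^ k • x = x) :
    s ∣ k ∨ γ • x = x := by
  by_cases hsk : s ∣ k
  · exact Or.inl hsk
  · right
    have h1 : Function.IsPeriodicPt (γ • · : X → X) k x := by
      show (γ • · : X → X)^[k] x = x
      rw [smul_iterate_apply]; exact hk
    have h2 : Function.IsPeriodicPt (γ • · : X → X) s x := by
      show (γ • · : X → X)^[s] x = x
      rw [smul_iterate_apply]; exact hγ x
    have h3 := h1.gcd h2
    have hcop : Nat.gcd k s = 1 := by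
      rw [Nat.gcd_comm]
      exact (Nat.Prime.coprime_iff_not_dvd hs).mpr hsk
    rw [hcop] at h3
    exact h3

theorem toPerm_pow_apply {G X : Type*} [Group G] [MulAction G X] (γ : G) (k : ℕ) (x : X) :
    ((MulAction.toPerm γ : Equiv.Perm X) ^ k) x = γ ^ k • x := by
  induction k generalizing x with
  | zero => simp
  | succ n ih => rw [pow_succ, Equiv.Perm.mul_apply, ih, MulAction.toPerm_apply, pow_succ, mul_smul]

/-- **Local data at a point `τ₀` over the center `c`.** -/
theorem exists_localData_at [Fintype (XX N)] (c : Kbar) (τ₀ : ℍ)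
    (γ : SL(2, ℤ)) (hγ : γ • τ₀ = τ₀) (s : ℕ) (hs : 0 < s)
    (hord : analyticOrderAt (fun z : ℂ => Jfun (ofComplex z) - iota c) (τ₀ : ℂ) = s)
    (hprim : IsPrimitiveRoot (denom (γ : GL (Fin 2) ℝ) τ₀ ^ 2) s)
    (hpow : ∀ (x : XX N) (k : ℕ), γ ^ k • x = x → s ∣ k ∨ γ • x = x) :
    ∃ L : LocalData Kbar (FF N) (XX N) (evF N).range (jgen N - algebraMap Kbar (FF N) c),
      L.ρ = MulAction.toPerm γ ∧
      ∀ (x : XX N) (P : MvPolynomial (N.divisors) Kbar),
        L.φ x (evF N P) = HahnSeries.ofPowerSeries ℤ ℂ (taylorAt τ₀ (transl N x P)) := by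
  set Pπ : MvPolynomial (N.divisors) Kbar := MvPolynomial.X (oneDiv N) - MvPolynomial.C c with hPπ
  have hevC : ∀ a : Kbar, evF N (MvPolynomial.C a) = algebraMap Kbar (FF N) a := fun a => by
    simp [evF]
  have hevπ : evF N Pπ = jgen N - algebraMap Kbar (FF N) c := by
    rw [hPπ, map_sub, evF_X_one, hevC]
  have htrπ : ∀ x : XX N, transl N x Pπ = fun τ => Jfun τ - iota c := by
    intro x
    rw [hPπ, H49.transl_sub, transl_X_one, transl_C]
    rfl
  have hnz : ∀ (x : XX N) (P : MvPolynomial (N.divisors) Kbar), evF N P ≠ 0 →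
      translHol N x P ≠ 0 := fun x P hP => mt (translHol_eq_zero_iff N x P).mp hP
  -- constants
  have hC : ∀ (x : XX N) (a : Kbar),
      phiFin N τ₀ x (algebraMap Kbar (FF N) a) = HahnSeries.C (iota a) := by
    intro x a
    rw [← hevC, phiFin_evF, PhiFin_apply, transl_C, taylorAt_const, HahnSeries.ofPowerSeries_C]
  -- the parameter
  have hπ : ∀ x y : XX N, phiFin N τ₀ x (jgen N - algebraMap Kbar (FF N) c)
      = phiFin N τ₀ y (jgen N - algebraMap Kbar (FF N) c) := by
    intro x y
    rw [← hevπ, phiFin_evF, phiFin_evF, PhiFin_apply, PhiFin_apply, htrπ, htrπ]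
  -- injectivity
  have hinj : Function.Injective (phiFin N τ₀) := by
    intro x y hxy
    apply transl_injective N
    have h1 : phiFin N τ₀ x (evF N (MvPolynomial.X (topDiv N)))
        = phiFin N τ₀ y (evF N (MvPolynomial.X (topDiv N))) := by rw [hxy]
    rw [phiFin_evF', phiFin_evF'] at h1
    exact congrArg Subtype.val (laurentHom_injective τ₀ h1)
  -- the order of the parameter
  have hsπ : ∀ x : XX N, (phiFin N τ₀ x (jgen N - algebraMap Kbar (FF N) c)).order = s := by
    intro x
    have hfun : (translHol N x Pπ : ℍ → ℂ) ∘ ofComplex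
        = fun z : ℂ => Jfun (ofComplex z) - iota c := by
      rw [translHol_coe, htrπ]; rfl
    have hne : translHol N x Pπ ≠ 0 := by
      intro h0
      have h1 : (translHol N x Pπ : ℍ → ℂ) = 0 := by rw [h0]; rfl
      rw [h1] at hfun
      have h2 : analyticOrderAt (fun z : ℂ => Jfun (ofComplex z) - iota c) (τ₀ : ℂ) = ⊤ := by
        rw [← hfun, analyticOrderAt_eq_top]
        exact Filter.Eventually.of_forall fun z => rfl
      rw [h2] at hord
      exact ENat.top_ne_natCast s hord
    obtain ⟨n, hn1, hn2⟩ := order_laurentHom τ₀ hne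
    rw [← hevπ, phiFin_evF', hn2]
    rw [hfun, hord] at hn1
    have : s = n := by exact_mod_cast hn1
    rw [this]
  -- monodromy
  have hρ : ∀ (x : XX N) (P : MvPolynomial (N.divisors) Kbar), evF N P ≠ 0 →
      (phiFin N τ₀ ((MulAction.toPerm γ : Equiv.Perm (XX N)) x) (evF N P)).order
        = (phiFin N τ₀ x (evF N P)).order := by
    intro x P hP
    rw [MulAction.toPerm_apply]
    obtain ⟨n1, h11, h12⟩ := order_laurentHom τ₀ (hnz (γ • x) P hP)
    obtain ⟨n2, h21, h22⟩ := order_laurentHom τ₀ (hnz x P hP)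
    rw [phiFin_evF', phiFin_evF', h12, h22]
    have hfun : (translHol N (γ • x) P : ℍ → ℂ) = fun τ => transl N x P (γ⁻¹ • τ) :=
      funext fun τ => H49.transl_smul' N x P γ τ
    have hfix : γ⁻¹ • τ₀ = τ₀ := by rw [inv_smul_eq_iff, hγ]
    rw [hfun, analyticOrderAt_comp_smul τ₀ (mdiff_transl N x P) γ⁻¹, hfix] at h11
    rw [translHol_coe, h11] at h21
    have : n1 = n2 := by exact_mod_cast h21
    rw [this]
  -- divisibility
  have hdvd : ∀ (x : XX N) (P : MvPolynomial (N.divisors) Kbar) (k : ℕ),
      ((MulAction.toPerm γ : Equiv.Perm (XX N)) ^ k) x = x → evF N P ≠ 0 →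
      (s : ℤ) ∣ k * (phiFin N τ₀ x (evF N P)).order := by
    intro x P k hk hP
    rw [toPerm_pow_apply] at hk
    rcases hpow x k hk with h | h
    · exact Dvd.dvd.mul_right (by exact_mod_cast h) _
    · obtain ⟨n, hn1, hn2⟩ := order_laurentHom τ₀ (hnz x P hP)
      rw [phiFin_evF', hn2]
      have hinv : ∀ τ, transl N x P (γ • τ) = transl N x P τ := fun τ =>
        H49.transl_smul_of_fixed N x P γ h τ
      have hdiv := dvd_analyticOrderAt_of_fixed τ₀ (mdiff_transl N x P) γ hγ hinv s n hprim hn1
      exact Dvd.dvd.mul_left (by exact_mod_cast hdiv) _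
  -- symmetric functions
  have hsym : ∀ (P : MvPolynomial (N.divisors) Kbar) (k : ℕ),
      ∃ ε ∈ IntermediateField.adjoin Kbar {jgen N - algebraMap Kbar (FF N) c}, ∀ x : XX N,
        phiFin N τ₀ x ε = (Finset.univ.val.map fun y => phiFin N τ₀ y (evF N P)).esymm k := by
    intro P k
    obtain ⟨r, hr⟩ := exists_sym_poly N P k
    refine ⟨evF N (Polynomial.aeval (MvPolynomial.X (oneDiv N)) r), ?_, fun x => ?_⟩
    · have h1 : evF N (Polynomial.aeval (MvPolynomial.X (oneDiv N)) r)
          = Polynomial.aeval (jgen N) r := by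
        rw [← Polynomial.aeval_algHom_apply, evF_X_one]
      rw [h1]
      have hj : jgen N ∈ IntermediateField.adjoin Kbar {jgen N - algebraMap Kbar (FF N) c} := by
        have hπmem := IntermediateField.mem_adjoin_simple_self Kbar
          (jgen N - algebraMap Kbar (FF N) c)
        have hc := (IntermediateField.adjoin Kbar
          {jgen N - algebraMap Kbar (FF N) c}).algebraMap_mem c
        have := add_mem hπmem hc
        simpa using this
      have hle : Algebra.adjoin Kbar {jgen N} ≤ (IntermediateField.adjoin Kbar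
          {jgen N - algebraMap Kbar (FF N) c}).toSubalgebra :=
        Algebra.adjoin_le (Set.singleton_subset_iff.mpr hj)
      exact hle (Polynomial.aeval_mem_adjoin_singleton _ _)
    · rw [phiFin_evF']
      have hE : translHol N x (Polynomial.aeval (MvPolynomial.X (oneDiv N)) r)
          = (Finset.univ.val.map fun y => translHol N y P).esymm k := by
        apply Subtype.ext
        funext τ
        have hR := map_esymm_univ
          ((Pi.evalRingHom (fun _ : ℍ => ℂ) τ).comp holSubring.subtype)
          (fun y => translHol N y P) k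
        have hL : (translHol N x (Polynomial.aeval (MvPolynomial.X (oneDiv N)) r) : ℍ → ℂ) τ
            = (Finset.univ.val.map fun y : XX N => transl N y P τ).esymm k := by
          show Theta N _ ((Quotient.out x : SL(2, ℤ))⁻¹ • τ) = _
          rw [hr, H49.esymm_transl_smul]
        rw [hL]
        exact hR.symm
      rw [hE, map_esymm_univ]
      simp only [phiFin_evF']
  obtain ⟨L, hLρ, hLφ⟩ := exists_localData_of_poly (evF N) (evF_frac N)
    (jgen N - algebraMap Kbar (FF N) c) iota (phiFin N τ₀) hC hπ hinj s hs hsπ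
    (MulAction.toPerm γ) hρ hdvd hsym
  exact ⟨L, hLρ, fun x P => by rw [hLφ]; exact phiFin_evF N τ₀ x P⟩

end Fermat.Agent.S24.H49
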